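import Fermat.Agent.XPoint.JValue
import Fermat.Agent.MazurPoint.Invariants
import Fermat.Agent.MazurPoint.Polygon
import Fermat.Agent.ECTorsion.Count
import Fermat.Agent.ModularFunctionField.InvariantPoly
import Mathlib.FieldTheory.IsAlgClosed.AlgebraicClosure
import Mathlib.AlgebraicGeometry.EllipticCurve.IsomOfJ

/-!
# The modular equation for isogenous elliptic curves

`Φ_N(j(E/C), j(E)) = 0` for a subgroup `C` of odd prime order `N` (characteristic zero).
-/

set_option autoImplicit false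

noncomputable section

open UpperHalfPlane hiding I
open PeriodPair WeierstrassCurve Finset Fermat.Agent.Isogeny
open scoped WeierstrassCurve.Affine
open Fermat.Agent.KummerES Fermat.Agent.ModularFunctionField Fermat.Agent.MazurPoint

namespace Fermat.Agent.XPoint

universe u

lemma jW_eq_j {K : Type u} [Field K] (W : WeierstrassCurve K) [W.IsElliptic] : jW W = W.j := by
  rw [jW, WeierstrassCurve.j, Units.val_inv_eq_inv_val, W.coe_Δ']
  ring

lemma zmultiples_eq_of_prime {G : Type*} [AddCommGroup G] {C : AddSubgroup G} {N : ℕ}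
    (hN : N.Prime) (hC : Nat.card C = N) {Q : G} (hQ : Q ∈ C) (hQ0 : Q ≠ 0) :
    AddSubgroup.zmultiples Q = C := by
  have : Finite C := Nat.finite_of_card_ne_zero (hC ▸ hN.ne_zero)
  have := Fact.mk hN
  refine AddSubgroup.eq_of_le_of_card_ge (AddSubgroup.zmultiples_le_of_mem hQ) (le_of_eq ?_)
  rw [hC, Nat.card_zmultiples]
  have h : addOrderOf Q = N := by
    refine addOrderOf_eq_prime ?_ hQ0
    have h1 : N • (⟨Q, hQ⟩ : C) = 0 := hC ▸ card_nsmul_eq_zero'
    exact congrArg Subtype.val h1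
  rw [h]

section Torsion

variable {N : ℕ} [NeZero N] (τ : ℍ)

/-- Every point killed by `N` is `wpHom` of a division point. -/
theorem exists_torsPt {P : (wpCurve (latticePair τ)).Point} (hP : N • P = 0) :
    ∃ u : Ind N, wpHom (Δ_latticePair_ne_zero τ) (torsPt u τ) = P := by
  set φ := wpHom (Δ_latticePair_ne_zero τ) with hφ
  have := isElliptic_wpCurve (Δ_latticePair_ne_zero τ)
  have hN : (N : ℂ) ≠ 0 := by exact_mod_cast NeZero.ne N
  have hkill : ∀ u : Ind N, N • φ (torsPt u τ) = 0 := by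
    intro u
    rw [← map_nsmul, hφ, wpHom_eq_zero_iff, mem_latticePair]
    refine ⟨(u 0).val, (u 1).val, ?_⟩
    simp only [torsPt, rawPt, nsmul_eq_mul]
    field_simp
  let f : Ind N → {P : (wpCurve (latticePair τ)).Point // N • P = 0} :=
    fun u => ⟨φ (torsPt u τ), hkill u⟩
  have hinj : Function.Injective f := by
    intro u u' h
    have h1 : φ (torsPt u τ) = φ (torsPt u' τ) := congrArg Subtype.val h
    rw [← sub_eq_zero, ← map_sub, hφ, wpHom_eq_zero_iff, torsPt, torsPt, rawPt_sub_mem_iff] at h1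
    funext i
    fin_cases i
    · simpa [ZMod.natCast_val] using h1.1
    · simpa [ZMod.natCast_val] using h1.2
  have hcard : Nat.card {P : (wpCurve (latticePair τ)).Point // N • P = 0} = N ^ 2 :=
    ECTorsion.card_nsmul_eq_zero (wpCurve (latticePair τ)) hN
  have : Finite {P : (wpCurve (latticePair τ)).Point // N • P = 0} :=
    Nat.finite_of_card_ne_zero (by rw [hcard]; exact pow_ne_zero _ (NeZero.ne N))
  have hbij := hinj.bijective_of_nat_card_le (by simp [hcard])
  obtain ⟨u, hu⟩ := hbij.2 ⟨P, hP⟩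
  exact ⟨u, congrArg Subtype.val hu⟩

/-- The modular equation for the cubic of `ℤ τ + ℤ`. -/
theorem phi_wpCurve (hN : N.Prime) (C : AddSubgroup (wpCurve (latticePair τ)).Point) [Finite C]
    (hC : Nat.card C = N) :
    (phiAt N (jW (veluCurve C))).eval (jFun τ) = 0 := by
  have := Fact.mk hN
  set φ := wpHom (Δ_latticePair_ne_zero τ) with hφ
  obtain ⟨Q, hQ, hQ0⟩ : ∃ Q ∈ C, Q ≠ 0 :=
    (AddSubgroup.bot_or_exists_ne_zero C).resolve_left (by
      rintro rfl
      rw [AddSubgroup.card_bot] at hC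
      exact hN.ne_one hC.symm)
  have hNQ : N • Q = 0 := by
    have h1 : N • (⟨Q, hQ⟩ : C) = 0 := hC ▸ card_nsmul_eq_zero'
    exact congrArg Subtype.val h1
  obtain ⟨u, rfl⟩ := exists_torsPt τ hNQ
  by_cases hu0 : u 0 = 0
  · -- the subgroup of `1/N`
    have h := isCyclicExt_inv (N := N) τ
    have hu1 : u 1 ≠ 0 := by
      intro h1
      apply hQ0
      rw [wpHom_eq_zero_iff, torsPt_mem_iff]
      funext i; fin_cases i <;> assumption
    have hmem : φ ((N : ℂ)⁻¹) ∈ C := by
      have e : φ ((N : ℂ)⁻¹) = ((u 1)⁻¹).val • φ (torsPt u τ) := by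
        rw [← map_nsmul, ← sub_eq_zero, ← map_sub, hφ, wpHom_eq_zero_iff]
        have : ((N : ℂ)⁻¹ - ((u 1)⁻¹).val • torsPt u τ) = rawPt N 0 1 τ -
            rawPt N (((u 1)⁻¹).val * (u 0).val) (((u 1)⁻¹).val * (u 1).val) τ := by
          simp only [torsPt, rawPt, nsmul_eq_mul]
          push_cast
          ring
        rw [this, rawPt_sub_mem_iff]
        constructor
        · simp [hu0]
        · push_cast
          rw [ZMod.natCast_zmod_val, ZMod.natCast_zmod_val, inv_mul_cancel₀ hu1]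
      exact e ▸ nsmul_mem hQ _
    have hne : φ ((N : ℂ)⁻¹) ≠ 0 := fun h0 => by
      have := (h.order 1).mp (by simpa using (wpHom_eq_zero_iff _).mp h0)
      exact hN.not_dvd_one (by exact_mod_cast this)
    obtain rfl := zmultiples_eq_of_prime hN hC hmem hne
    rw [h.veluCurve_eq, jW_divPair]
    exact modularPoly_natMul τ
  · -- the subgroup of `(τ + b)/N`
    set b : ℤ := (((u 1 * (u 0)⁻¹).val : ℕ) : ℤ) with hb
    have h := isCyclicExt_shiftDiv (N := N) τ b
    have hmem : φ (((τ : ℂ) + b) / N) ∈ C := by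
      have e : φ (((τ : ℂ) + b) / N) = ((u 0)⁻¹).val • φ (torsPt u τ) := by
        rw [← map_nsmul, ← sub_eq_zero, ← map_sub, hφ, wpHom_eq_zero_iff]
        have : (((τ : ℂ) + b) / N - ((u 0)⁻¹).val • torsPt u τ) = rawPt N 1 b τ -
            rawPt N (((u 0)⁻¹).val * (u 0).val) (((u 0)⁻¹).val * (u 1).val) τ := by
          simp only [torsPt, rawPt, nsmul_eq_mul]
          push_cast
          ring
        rw [this, rawPt_sub_mem_iff]
        constructor
        · push_cast
          rw [ZMod.natCast_zmod_val, ZMod.natCast_zmod_val, inv_mul_cancel₀ hu0]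
        · rw [hb]
          push_cast
          rw [ZMod.natCast_zmod_val, ZMod.natCast_zmod_val, ZMod.natCast_zmod_val, mul_comm]
      exact e ▸ nsmul_mem hQ _
    have hne : φ (((τ : ℂ) + b) / N) ≠ 0 := fun h0 => by
      have := (h.order 1).mp (by simpa using (wpHom_eq_zero_iff _).mp h0)
      exact hN.not_dvd_one (by exact_mod_cast this)
    obtain rfl := zmultiples_eq_of_prime hN hC hmem hne
    rw [h.veluCurve_eq, jW_latticePair]
    exact modularPoly_shiftDiv τ b

end Torsion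

/-- The modular equation over `ℂ`. -/
theorem phi_complex {N : ℕ} [NeZero N] (hN : N.Prime) (hodd : Odd N) {W : Affine ℂ} [W.IsElliptic]
    (C : AddSubgroup W.Point) [Finite C] (hC : Nat.card C = N) :
    (phiAt N (jQuot C)).eval (W.c₄ ^ 3 / W.Δ) = 0 := by
  obtain ⟨τ, hτ⟩ := Fermat.Agent.ModularFunctionField.jFun_surjective (jW W)
  have := isElliptic_wpCurve (Δ_latticePair_ne_zero τ)
  have hj : W.j = (wpCurve (latticePair τ)).j := by
    rw [← jW_eq_j, ← jW_eq_j, jW_latticePair, hτ]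
  obtain ⟨D, hD⟩ := exists_variableChange_of_j_eq W (wpCurve (latticePair τ)) hj
  set V := wpCurve (latticePair τ) with hV
  set e := VariableChangePoints.pointAddEquiv (W := W) (V := V) hD.symm with he
  set C' : AddSubgroup V.Point := C.comap e.toAddMonoidHom with hC'
  have hmem : ∀ P : V.Point, P ∈ C' ↔ e P ∈ C := fun P => Iff.rfl
  have hcard : Nat.card C' = N := by
    rw [← hC]; exact Nat.card_congr (e.toEquiv.subtypeEquiv hmem)
  have : Finite C' := Nat.finite_of_card_ne_zero (hcard ▸ hN.ne_zero)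
  rw [← jQuot_change hD.symm hmem (hC.symm ▸ hodd)]
  have h := phi_wpCurve τ hN C' hcard
  rw [hτ] at h
  exact h

section BaseChange

variable {K : Type u} [Field K] [DecidableEq K] {L : Type u} [Field L] [DecidableEq L]

omit [DecidableEq K] [DecidableEq L] in
/-- The specialised modular polynomial commutes with ring maps. -/
lemma map_phiAt (ψ : K →+* L) (N : ℕ) [NeZero N] (a : K) :
    (phiAt N a).map ψ = phiAt N (ψ a) := by
  rw [phiAt, phiAt, Polynomial.map_map]
  congr 1
  ext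
  · simp
  · simp

end BaseChange

/-- **The modular equation** over any field that embeds in `ℂ`. -/
theorem phiAt_jQuot_eval {K : Type} [Field K] [DecidableEq K] (ψ : K →+* ℂ)
    {N : ℕ} [NeZero N] (hN : N.Prime) (hodd : Odd N)
    {W : Affine K} [W.IsElliptic] (C : AddSubgroup W.Point) [Finite C] (hC : Nat.card C = N) :
    (phiAt N (jQuot C)).eval (W.c₄ ^ 3 / W.Δ) = 0 := by
  let : Algebra K ℂ := ψ.toAlgebra
  set m : W.Point →+ (W⁄ℂ).Point :=
    Affine.Point.map (W' := W) (F := K) (K := ℂ) (Algebra.ofId K ℂ) with hm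
  have hinj : Function.Injective m := Affine.Point.map_injective _
  set C' : AddSubgroup (W⁄ℂ).Point := C.map m with hC'
  have hcard : Nat.card C' = N := hC ▸ (Nat.card_congr (C.equivMapOfInjective m hinj).toEquiv).symm
  have : Finite C' := Nat.finite_of_card_ne_zero (hcard ▸ hN.ne_zero)
  have : (W⁄ℂ).IsElliptic := inferInstanceAs (W.map (algebraMap K ℂ)).IsElliptic
  have hxc : ∀ P : W.Point, xc (m P) = ψ (xc P) := by
    rintro (_ | ⟨x, y, h⟩)
    · exact (map_zero ψ).symm
    · rfl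
  have hgc : ∀ P : W.Point, gc (m P) = ψ (gc P) := by
    rintro (_ | ⟨x, y, h⟩)
    · exact (map_zero ψ).symm
    · show 2 * ψ y + ψ W.a₁ * ψ x + ψ W.a₃ = ψ (2 * y + W.a₁ * x + W.a₃)
      simp [map_ofNat]
  have hCs : ∀ f : (W⁄ℂ).Point → ℂ, ∑ Q ∈ Cs C', f Q = ∑ Q ∈ Cs C, f (m Q) := by
    intro f
    symm
    refine Finset.sum_bij (fun Q _ => m Q) (fun Q hQ => ?_) (fun _ _ _ _ h => hinj h)
      (fun Q hQ => ?_) (fun _ _ => rfl)
    · rw [mem_Cs] at hQ ⊢
      exact ⟨(map_ne_zero_iff m hinj).mpr hQ.1, AddSubgroup.mem_map_of_mem m hQ.2⟩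
    · rw [mem_Cs] at hQ
      obtain ⟨P, hP, rfl⟩ := AddSubgroup.mem_map.mp hQ.2
      exact ⟨P, (mem_Cs C).mpr ⟨fun h => hQ.1 (by rw [h, map_zero]), hP⟩, rfl⟩
  have hb₂ : (W⁄ℂ).b₂ = ψ W.b₂ := WeierstrassCurve.map_b₂ W ψ
  have hb₄ : (W⁄ℂ).b₄ = ψ W.b₄ := WeierstrassCurve.map_b₄ W ψ
  have ht : tV C' = ψ (tV C) := by
    rw [tV, tV, hCs, map_div₀, map_sum, map_ofNat]
    congr 1
    refine Finset.sum_congr rfl fun Q _ => ?_
    simp only [tq, hxc, hb₂, hb₄, map_add, map_mul, map_pow, map_ofNat]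
  have hw : wV C' = ψ (wV C) := by
    rw [wV, wV, hCs, map_div₀, map_sum, map_ofNat]
    congr 1
    refine Finset.sum_congr rfl fun Q _ => ?_
    simp only [tq, uq, hxc, hgc, hb₂, hb₄, map_add, map_mul, map_pow, map_ofNat]
  have hv : veluCurve C' = (veluCurve C).map ψ := by
    ext <;> simp only [veluCurve, ht, hw, hb₂, map_sub, map_mul, map_ofNat,
      WeierstrassCurve.map_a₁, WeierstrassCurve.map_a₂, WeierstrassCurve.map_a₃,
      WeierstrassCurve.map_a₄, WeierstrassCurve.map_a₆] <;> rfl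
  have hq : jQuot C' = ψ (jQuot C) := by
    rw [jQuot, jQuot, hv, WeierstrassCurve.map_c₄, WeierstrassCurve.map_Δ, map_div₀, map_pow]
  have h := phi_complex hN hodd C' hcard
  rw [hq, ← map_phiAt ψ, show (W⁄ℂ).c₄ = ψ W.c₄ from WeierstrassCurve.map_c₄ W ψ,
    show (W⁄ℂ).Δ = ψ W.Δ from WeierstrassCurve.map_Δ W ψ,
    ← map_pow, ← map_div₀, Polynomial.eval_map,
    Polynomial.eval₂_at_apply] at h
  exact ψ.injective (h.trans (map_zero ψ).symm)

/-- **The modular equation over `ℚ̄`.** -/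
theorem phiAt_jQuot_Qbar {N : ℕ} [NeZero N] (hN : N.Prime) (hodd : Odd N)
    [DecidableEq (AlgebraicClosure ℚ)]
    {W : Affine (AlgebraicClosure ℚ)} [W.IsElliptic] (C : AddSubgroup W.Point) [Finite C]
    (hC : Nat.card C = N) :
    (phiAt N (jQuot C)).eval (W.c₄ ^ 3 / W.Δ) = 0 :=
  haveI : Algebra.IsAlgebraic ℚ (AlgebraicClosure ℚ) := AlgebraicClosure.isAlgebraic ℚ
  phiAt_jQuot_eval (IsAlgClosed.lift (R := ℚ) (M := ℂ) : AlgebraicClosure ℚ →ₐ[ℚ] ℂ).toRingHom
    hN hodd C hC

/-- The modular equation with rational `j`-invariants. -/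
theorem phiAt_eval_rat {N : ℕ} [NeZero N] (hN : N.Prime) (hodd : Odd N)
    [DecidableEq (AlgebraicClosure ℚ)]
    {W : Affine (AlgebraicClosure ℚ)} [W.IsElliptic] (C : AddSubgroup W.Point) [Finite C]
    (hC : Nat.card C = N) {j jq : ℚ} (hj : algebraMap ℚ (AlgebraicClosure ℚ) j = W.c₄ ^ 3 / W.Δ)
    (hjq : algebraMap ℚ (AlgebraicClosure ℚ) jq = jQuot C) :
    (phiAt N jq).eval j = 0 := by
  have h := phiAt_jQuot_Qbar hN hodd C hC
  rw [← hj, ← hjq, ← map_phiAt (algebraMap ℚ (AlgebraicClosure ℚ)), Polynomial.eval_map,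
    Polynomial.eval₂_at_apply] at h
  exact (algebraMap ℚ (AlgebraicClosure ℚ)).injective (h.trans (map_zero _).symm)

end Fermat.Agent.XPoint
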