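import Fermat.Agent.XPoint.Lattice
import Fermat.Agent.KummerES.Wp
import Fermat.Agent.ModularFunctionField.ModularPolynomial
import Mathlib.NumberTheory.ModularForms.LevelOne.GradedRing
import Mathlib.NumberTheory.LSeries.HurwitzZetaValues

/-!
# `j`-invariants of the lattices of index `N`

The `j`-invariant of the Weierstrass cubic of `ℤ τ + ℤ` is `j(τ)`, and the two kinds of cyclic
superlattices of index `N`.
-/

set_option autoImplicit false

noncomputable section

open UpperHalfPlane hiding I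
open PeriodPair WeierstrassCurve Real EisensteinSeries ModularForm
open Fermat.Agent.KummerES Fermat.Agent.ModularFunctionField
open scoped MatrixGroups

namespace Fermat.Agent.XPoint

/-- `c₄³ / Δ`. -/
def jW {K : Type*} [Field K] (W : WeierstrassCurve K) : K := W.c₄ ^ 3 / W.Δ

lemma jW_wpCurve (L : PeriodPair) :
    jW (wpCurve L) = (12 * L.g₂) ^ 3 / (L.g₂ ^ 3 - 27 * L.g₃ ^ 2) := by
  rw [jW, wpCurve_Δ]
  congr 2
  simp only [wpCurve, WeierstrassCurve.c₄, WeierstrassCurve.b₂, WeierstrassCurve.b₄]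
  ring

/-- Homogeneity of the Eisenstein sums. -/
lemma G_homothety (P Q : PeriodPair) (c : ℂ) (hc : c ≠ 0)
    (h : ∀ x, x ∈ Q.lattice ↔ c * x ∈ P.lattice) (n : ℕ) : Q.G n = c ^ n * P.G n := by
  let e : Q.lattice ≃ P.lattice :=
    { toFun := fun x => ⟨c * x, (h x).mp x.2⟩
      invFun := fun y => ⟨c⁻¹ * y, (h _).mpr (by rw [mul_inv_cancel_left₀ hc]; exact y.2)⟩
      left_inv := fun x => by ext; simp [hc]
      right_inv := fun y => by ext; simp [hc] }
  rw [PeriodPair.G, PeriodPair.G, ← tsum_mul_left, ← e.tsum_eq]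
  refine tsum_congr fun x => ?_
  simp only [e, Equiv.coe_fn_mk, mul_pow, mul_inv]
  rw [← mul_assoc, mul_inv_cancel₀ (pow_ne_zero n hc), one_mul]

lemma jW_homothety (P Q : PeriodPair) (c : ℂ) (hc : c ≠ 0)
    (h : ∀ x, x ∈ Q.lattice ↔ c * x ∈ P.lattice) : jW (wpCurve Q) = jW (wpCurve P) := by
  rw [jW_wpCurve, jW_wpCurve, PeriodPair.g₂, PeriodPair.g₃, PeriodPair.g₂, PeriodPair.g₃,
    G_homothety P Q c hc h, G_homothety P Q c hc h,
    show (12 * (60 * (c ^ 4 * P.G 4))) ^ 3 = c ^ 12 * (12 * (60 * P.G 4)) ^ 3 by ring,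
    show (60 * (c ^ 4 * P.G 4)) ^ 3 - 27 * (140 * (c ^ 6 * P.G 6)) ^ 2 =
      c ^ 12 * ((60 * P.G 4) ^ 3 - 27 * (140 * P.G 6) ^ 2) by ring,
    mul_div_mul_left _ _ (pow_ne_zero _ hc)]

lemma G_latticePair (τ : ℍ) {n : ℕ} (hn : 3 ≤ n) :
    (latticePair τ).G n = 2 * riemannZeta n * ModularForm.E hn τ := by
  have hsum : (latticePair τ).G n = ∑' v : Fin 2 → ℤ, eisSummand n v τ := by
    rw [PeriodPair.G,
      ← ((finTwoArrowEquiv ℤ).trans (latticePair τ).latticeEquivProd.symm.toEquiv).tsum_eq]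
    congr 1
    funext v
    simp only [Equiv.trans_apply, finTwoArrowEquiv_apply, piFinTwoEquiv_apply, Equiv.toFun_as_coe,
      LinearEquiv.coe_toEquiv, PeriodPair.latticeEquiv_symm_apply, EisensteinSeries.eisSummand]
    rw [zpow_neg, zpow_natCast]
    simp [latticePair]
  have hE : ModularForm.E hn τ = (1 / 2 : ℂ) * eisensteinSeries (0 : Fin 2 → ZMod 1) n τ := rfl
  rw [hsum, tsum_eisSummand_eq_riemannZeta_mul_eisensteinSeries hn, hE]
  ring

lemma riemannZeta_six' : riemannZeta 6 = (π : ℂ) ^ 6 / 945 := by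
  have h := riemannZeta_two_mul_nat (k := 3) (by norm_num)
  have hb : bernoulli 6 = 1 / 42 := by
    have h5 : bernoulli' 5 = 0 := by
      rw [bernoulli'_def]
      norm_num [Finset.sum_range_succ, Finset.sum_range_zero, Nat.choose]
    rw [bernoulli_eq_bernoulli'_of_ne_one (by decide), bernoulli'_def]
    norm_num [Finset.sum_range_succ, Finset.sum_range_zero, Nat.choose, h5]
  rw [show (2 : ℂ) * (3 : ℕ) = 6 by norm_num] at h
  rw [h, show 2 * 3 = 6 from rfl, hb]
  norm_num [Nat.factorial]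
  ring

lemma g₂_latticePair (τ : ℍ) :
    (latticePair τ).g₂ = 4 * (π : ℂ) ^ 4 / 3 * ModularForm.E₄ τ := by
  rw [PeriodPair.g₂, G_latticePair τ (n := 4) (by norm_num),
    show ((4 : ℕ) : ℂ) = 4 by norm_num, riemannZeta_four]
  ring

lemma g₃_latticePair (τ : ℍ) :
    (latticePair τ).g₃ = 8 * (π : ℂ) ^ 6 / 27 * ModularForm.E₆ τ := by
  rw [PeriodPair.g₃, G_latticePair τ (n := 6) (by norm_num),
    show ((6 : ℕ) : ℂ) = 6 by norm_num, riemannZeta_six']
  ring

lemma disc_latticePair (τ : ℍ) :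
    (wpCurve (latticePair τ)).Δ = 64 * (π : ℂ) ^ 12 / 27 * (1728 * ModularForm.discriminant τ) := by
  rw [wpCurve_Δ, g₂_latticePair, g₃_latticePair, ModularForm.discriminant_eq_E₄_cube_sub_E₆_sq]
  ring

/-- The curve of the lattice `(1, τ)` is nonsingular. -/
theorem Δ_latticePair_ne_zero (τ : ℍ) : (wpCurve (latticePair τ)).Δ ≠ 0 := by
  rw [disc_latticePair]
  exact mul_ne_zero (div_ne_zero (mul_ne_zero (by norm_num)
    (pow_ne_zero _ (Complex.ofReal_ne_zero.mpr Real.pi_ne_zero))) (by norm_num))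
    (mul_ne_zero (by norm_num) (ModularForm.discriminant_ne_zero τ))

/-- `j(ℤ τ + ℤ) = j(τ)`. -/
theorem jW_latticePair (τ : ℍ) : jW (wpCurve (latticePair τ)) = jFun τ := by
  have hπ : (π : ℂ) ≠ 0 := Complex.ofReal_ne_zero.mpr Real.pi_ne_zero
  have hd : ModularForm.discriminant τ ≠ 0 := ModularForm.discriminant_ne_zero τ
  rw [jW, disc_latticePair, jFun]
  have hc : (wpCurve (latticePair τ)).c₄ = 12 * (latticePair τ).g₂ := by
    simp only [wpCurve, WeierstrassCurve.c₄, WeierstrassCurve.b₂, WeierstrassCurve.b₄]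
    ring
  rw [hc, g₂_latticePair]
  field_simp
  ring

/-! ### The two kinds of superlattices -/

variable {N : ℕ} [NeZero N]

/-- `(τ + b) / N`. -/
def shiftDiv (N : ℕ) [NeZero N] (τ : ℍ) (b : ℤ) : ℍ :=
  ⟨((τ : ℂ) + b) / N, by
    rw [Complex.div_natCast_im]
    exact div_pos (by simpa using τ.im_pos) (by exact_mod_cast NeZero.pos N)⟩

lemma coe_shiftDiv (τ : ℍ) (b : ℤ) : (shiftDiv N τ b : ℂ) = ((τ : ℂ) + b) / N := rfl

lemma order_of_coprime (τ : ℍ) {c d : ℤ} (h : ∀ k : ℤ, (N : ℤ) ∣ k * c → (N : ℤ) ∣ k * d → (N : ℤ) ∣ k)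
    (k : ℤ) :
    (k : ℂ) * (((c : ℂ) * τ + d) / N) ∈ (latticePair τ).lattice ↔ (N : ℤ) ∣ k := by
  have h0 : rawPt N 0 0 τ = 0 := by simp [rawPt]
  have e : (k : ℂ) * (((c : ℂ) * τ + d) / N) = rawPt N (k * c) (k * d) τ - rawPt N 0 0 τ := by
    rw [h0, rawPt]; push_cast; ring
  rw [e, rawPt_sub_mem_iff]
  simp only [Int.cast_zero, ZMod.intCast_zmod_eq_zero_iff_dvd]
  exact ⟨fun hk => h k hk.1 hk.2, fun hk => ⟨hk.mul_right c, hk.mul_right d⟩⟩

/-- `ℤ τ + ℤ + ℤ (τ+b)/N = ℤ (τ+b)/N + ℤ`. -/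
theorem isCyclicExt_shiftDiv (τ : ℍ) (b : ℤ) :
    IsCyclicExt (latticePair τ) (latticePair (shiftDiv N τ b)) (((τ : ℂ) + b) / N) N where
  order k := by
    have := order_of_coprime (N := N) τ (c := 1) (d := b)
      (fun k h1 _ => by rwa [mul_one] at h1) k
    rwa [Int.cast_one, one_mul] at this
  mem_iff z := by
    have hN : (N : ℂ) ≠ 0 := by exact_mod_cast NeZero.ne N
    have hN' : (0 : ℤ) < N := by exact_mod_cast NeZero.pos N
    simp only [mem_latticePair, coe_shiftDiv]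
    constructor
    · rintro ⟨m, n, rfl⟩
      have hm : 0 ≤ m % (N : ℤ) := Int.emod_nonneg _ hN'.ne'
      have hlt : m % (N : ℤ) < N := Int.emod_lt_of_pos _ hN'
      refine ⟨⟨(m % (N : ℤ)).toNat, by omega⟩, m / N, m / N * b + n, ?_⟩
      have h1 : (((m % (N : ℤ)).toNat : ℕ) : ℂ) = (m : ℂ) - (N : ℂ) * ((m / (N : ℤ) : ℤ) : ℂ) := by
        have h2 := Int.emod_add_mul_ediv m (N : ℤ)
        have h3 : (((m % (N : ℤ)).toNat : ℕ) : ℤ) = m - (N : ℤ) * (m / (N : ℤ)) := by
          rw [Int.toNat_of_nonneg hm]; omega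
        exact_mod_cast h3
      rw [show (((⟨(m % (N : ℤ)).toNat, by omega⟩ : Fin N) : ℕ) : ℂ) =
        (((m % (N : ℤ)).toNat : ℕ) : ℂ) from rfl, h1]
      field_simp
      push_cast
      ring
    · rintro ⟨i, m, n, h⟩
      refine ⟨(i : ℕ) + N * m, n - m * b, ?_⟩
      rw [← sub_eq_iff_eq_add.mpr (show z = z - (i : ℂ) * (((τ : ℂ) + b) / N) +
        (i : ℂ) * (((τ : ℂ) + b) / N) by ring)] at h
      field_simp at h ⊢
      push_cast
      linear_combination h

/-- The lattice `ℤ τ + ℤ/N`. -/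
def divPair (N : ℕ) [NeZero N] (τ : ℍ) : PeriodPair where
  ω₁ := τ
  ω₂ := (N : ℂ)⁻¹
  indep := by
    rw [LinearIndependent.pair_iff]
    intro s t h
    have him := congrArg Complex.im h
    simp [Complex.inv_im, τ.im_ne_zero] at him
    refine ⟨him, ?_⟩
    have hre := congrArg Complex.re h
    simpa [him, Complex.inv_re, Complex.normSq_natCast, NeZero.ne N] using hre

lemma mem_divPair {τ : ℍ} {z : ℂ} :
    z ∈ (divPair N τ).lattice ↔ ∃ m n : ℤ, (m : ℂ) * τ + (n : ℂ) / N = z := by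
  simp [PeriodPair.mem_lattice, divPair, div_eq_mul_inv]

/-- `1/N` generates a cyclic extension of degree `N` of the lattice of `τ`. -/
theorem isCyclicExt_inv (τ : ℍ) :
    IsCyclicExt (latticePair τ) (divPair N τ) ((N : ℂ)⁻¹) N where
  order k := by
    have := order_of_coprime (N := N) τ (c := 0) (d := 1)
      (fun k _ h2 => by rwa [mul_one] at h2) k
    rwa [Int.cast_zero, zero_mul, zero_add, Int.cast_one, one_div] at this
  mem_iff z := by
    have hN : (N : ℂ) ≠ 0 := by exact_mod_cast NeZero.ne N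
    have hN' : (0 : ℤ) < N := by exact_mod_cast NeZero.pos N
    simp only [mem_latticePair, mem_divPair]
    constructor
    · rintro ⟨m, n, rfl⟩
      have hm : 0 ≤ n % (N : ℤ) := Int.emod_nonneg _ hN'.ne'
      have hlt : n % (N : ℤ) < N := Int.emod_lt_of_pos _ hN'
      refine ⟨⟨(n % (N : ℤ)).toNat, by omega⟩, m, n / N, ?_⟩
      have h1 : (((n % (N : ℤ)).toNat : ℕ) : ℂ) = (n : ℂ) - (N : ℂ) * ((n / (N : ℤ) : ℤ) : ℂ) := by
        have h2 := Int.emod_add_mul_ediv n (N : ℤ)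
        have h3 : (((n % (N : ℤ)).toNat : ℕ) : ℤ) = n - (N : ℤ) * (n / (N : ℤ)) := by
          rw [Int.toNat_of_nonneg hm]; omega
        exact_mod_cast h3
      rw [show (((⟨(n % (N : ℤ)).toNat, by omega⟩ : Fin N) : ℕ) : ℂ) =
        (((n % (N : ℤ)).toNat : ℕ) : ℂ) from rfl, h1]
      field_simp
      ring
    · rintro ⟨i, m, n, h⟩
      refine ⟨m, (i : ℕ) + N * n, ?_⟩
      field_simp at h ⊢
      push_cast
      linear_combination h

/-- `N τ`. -/
def natMul (N : ℕ) [NeZero N] (τ : ℍ) : ℍ :=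
  ⟨(N : ℂ) * τ, by
    simpa using mul_pos (show (0 : ℝ) < N by exact_mod_cast NeZero.pos N) τ.im_pos⟩

/-- The `j`-invariant of the enlarged lattice is `j (N τ)`. -/
theorem jW_divPair (τ : ℍ) : jW (wpCurve (divPair N τ)) = jFun (natMul N τ) := by
  have hN : (N : ℂ) ≠ 0 := by exact_mod_cast NeZero.ne N
  rw [← jW_latticePair]
  refine jW_homothety _ _ (N : ℂ) hN fun x => ?_
  simp only [mem_latticePair, mem_divPair]
  constructor
  · rintro ⟨m, n, rfl⟩
    refine ⟨m, n, ?_⟩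
    show (m : ℂ) * ((N : ℂ) * τ) + n = _
    field_simp
  · rintro ⟨m, n, h⟩
    refine ⟨m, n, ?_⟩
    change (m : ℂ) * ((N : ℂ) * τ) + n = _ at h
    field_simp
    linear_combination h

/-! ### The roots of the modular polynomial -/

/-- `Φ_N(j τ, j τ') = 0` when `τ' = M τ`. -/
theorem modularPoly_root (τ : ℍ) (M : Tri N) :
    ((modularPoly N).map (Polynomial.eval₂RingHom (Int.castRingHom ℂ) (jFun τ))).eval
      (jFun (M.map τ)) = 0 := by
  have h : (Polynomial.eval₂RingHom (Int.castRingHom ℂ) (jFun τ)) =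
      (Polynomial.evalRingHom (jFun τ)).comp (Polynomial.mapRingHom (Int.castRingHom ℂ)) := by
    ext <;> simp
  rw [h, modularPoly_map_jFun, Polynomial.eval_prod]
  exact Finset.prod_eq_zero (Finset.mem_univ M) (by simp)

/-- `j` is invariant under integral translations. -/
lemma jFun_add_int (τ : ℍ) (b : ℤ) (σ : ℍ) (h : (σ : ℂ) = (τ : ℂ) + b) : jFun σ = jFun τ := by
  rw [← jFun_invariant (ModularGroup.T ^ b) τ]
  congr 1
  rw [modular_T_zpow_smul]
  apply UpperHalfPlane.ext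
  rw [h, coe_vadd]
  push_cast
  ring

/-- The modular equation at `(τ+b)/N`. -/
theorem modularPoly_shiftDiv (τ : ℍ) (b : ℤ) :
    ((modularPoly N).map (Polynomial.eval₂RingHom (Int.castRingHom ℂ)
      (jFun (shiftDiv N τ b)))).eval (jFun τ) = 0 := by
  have h := modularPoly_root (shiftDiv N τ b) (Tri.top : Tri N)
  rwa [jFun_add_int τ b] at h
  rw [Tri.coe_map, coe_shiftDiv]
  have hN : (N : ℂ) ≠ 0 := by exact_mod_cast NeZero.ne N
  rw [show (Tri.top : Tri N).a = N from rfl, show (Tri.top : Tri N).b = 0 from rfl,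
    show (Tri.top : Tri N).d = 1 from rfl]
  field_simp
  push_cast
  ring

/-- The modular equation at `N τ`. -/
theorem modularPoly_natMul (τ : ℍ) :
    ((modularPoly N).map (Polynomial.eval₂RingHom (Int.castRingHom ℂ)
      (jFun (natMul N τ)))).eval (jFun τ) = 0 := by
  set M : Tri N := Tri.mk 1 0 N (one_mul N) (NeZero.pos N) (by simp) with hM
  have h := modularPoly_root (natMul N τ) M
  rwa [show M.map (natMul N τ) = τ from ?_] at h
  apply UpperHalfPlane.ext
  rw [Tri.coe_map]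
  have hN : (N : ℂ) ≠ 0 := by exact_mod_cast NeZero.ne N
  rw [show M.a = 1 from rfl, show M.b = 0 from rfl, show M.d = N from rfl]
  show ((1 : ℕ) * ((N : ℂ) * τ) + (0 : ℕ)) / N = τ
  field_simp
  push_cast
  ring

end Fermat.Agent.XPoint
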