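import Fermat.Agent.XPoint.Wp
import Fermat.Agent.Isogeny.Smooth
import Mathlib.Analysis.Complex.Polynomial.Basic

/-!
# Vélu's quotient of a complex elliptic curve as a lattice

The quotient of a complex elliptic curve by a cyclic subgroup, as a lattice, agrees with Vélu's
quotient.
-/

set_option autoImplicit false

noncomputable section

open Filter Topology PeriodPair WeierstrassCurve Finset Polynomial Fermat.Agent.Isogeny

namespace Fermat.Agent.XPoint

/-- The curve of a lattice with nonzero discriminant is elliptic. -/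
lemma isElliptic_wpCurve {L : PeriodPair} (hΔ : (wpCurve L).Δ ≠ 0) : (wpCurve L).IsElliptic :=
  ⟨isUnit_iff_ne_zero.mpr hΔ⟩

/-- The `xc` coordinate of `wpHom z` is `℘ z`, also at the lattice points. -/
lemma xc_wpHom {L : PeriodPair} (hΔ : (wpCurve L).Δ ≠ 0) (z : ℂ) :
    xc (wpHom hΔ z) = ℘[L] z := by
  by_cases hz : z ∈ L.lattice
  · rw [wpHom_apply, wpPoint_of_mem hΔ hz, xc_zero, L.weierstrassP_coe ⟨z, hz⟩]
  · rw [wpHom_apply, wpPoint_of_notMem hΔ hz]
    rfl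

/-- The `gc` coordinate of `wpHom z` is `℘' z`, also at the lattice points. -/
lemma gc_wpHom {L : PeriodPair} (hΔ : (wpCurve L).Δ ≠ 0) (z : ℂ) :
    gc (wpHom hΔ z) = ℘'[L] z := by
  by_cases hz : z ∈ L.lattice
  · rw [wpHom_apply, wpPoint_of_mem hΔ hz, gc_zero, L.derivWeierstrassP_coe ⟨z, hz⟩]
  · rw [wpHom_apply, wpPoint_of_notMem hΔ hz]
    show 2 * (℘'[L] z / 2) + (wpCurve L).a₁ * ℘[L] z + (wpCurve L).a₃ = ℘'[L] z
    simp only [wpCurve]
    ring

variable {L L' : PeriodPair} {v : ℂ} {N : ℕ}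

/-- `L'` is generated by `L` and `v`, and `v` has order exactly `N` modulo `L`. -/
structure IsCyclicExt (L L' : PeriodPair) (v : ℂ) (N : ℕ) : Prop where
  mem_iff : ∀ z, z ∈ L'.lattice ↔ ∃ i : Fin N, z - (i : ℂ) * v ∈ L.lattice
  order : ∀ k : ℤ, (k : ℂ) * v ∈ L.lattice ↔ (N : ℤ) ∣ k

namespace IsCyclicExt

variable (h : IsCyclicExt L L' v N)
include h

/-- The multiples `i v` with `i < N` are distinct modulo `L`. -/
lemma inj {i j : Fin N} (hij : (i : ℂ) * v - (j : ℂ) * v ∈ L.lattice) : i = j := by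
  have h1 : (((i : ℤ) - (j : ℤ) : ℤ) : ℂ) * v ∈ L.lattice := by
    push_cast
    rwa [sub_mul]
  have h2 := (h.order _).mp h1
  have h3 : ((i : ℤ) - (j : ℤ)) = 0 :=
    Int.eq_zero_of_dvd_of_natAbs_lt_natAbs h2 (by omega)
  exact Fin.ext (by omega)

/-- `(i, l) ↦ i v + l`. -/
def latticeEquiv : Fin N × L.lattice ≃ L'.lattice :=
  Equiv.ofBijective
    (fun p => ⟨(p.1 : ℂ) * v + p.2, (h.mem_iff _).mpr ⟨p.1, by simp⟩⟩)
    ⟨fun p q hpq => by
      have e : (p.1 : ℂ) * v + p.2 = (q.1 : ℂ) * v + q.2 := congrArg Subtype.val hpq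
      have h1 : p.1 = q.1 := h.inj (by
        have : (p.1 : ℂ) * v - (q.1 : ℂ) * v = (q.2 : ℂ) - p.2 := by linear_combination e
        rw [this]; exact sub_mem q.2.2 p.2.2)
      rw [h1] at e
      exact Prod.ext h1 (Subtype.ext (add_left_cancel e)),
    fun z => by
      obtain ⟨i, hi⟩ := (h.mem_iff _).mp z.2
      exact ⟨⟨i, ⟨_, hi⟩⟩, Subtype.ext (by simp)⟩⟩

lemma coe_latticeEquiv (i : Fin N) (l : L.lattice) :
    (h.latticeEquiv (i, l) : ℂ) = (i : ℂ) * v + l := rfl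

theorem derivWeierstrassP_eq (z : ℂ) :
    ℘'[L'] z = ∑ i : Fin N, ℘'[L] (z - (i : ℂ) * v) := by
  have h1 := h.latticeEquiv.hasSum_iff.mpr (L'.hasSum_derivWeierstrassP z)
  refine (h1.prod_fiberwise fun i => ?_).unique (hasSum_fintype _)
  refine (L.hasSum_derivWeierstrassP (z - (i : ℂ) * v)).congr_fun fun l => ?_
  simp only [Function.comp_apply, h.coe_latticeEquiv, sub_sub]

theorem weierstrassP_eq (z : ℂ) :
    ℘[L'] z = ∑ i : Fin N, (℘[L] (z - (i : ℂ) * v) - ℘[L] (-((i : ℂ) * v))) := by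
  have h1 := h.latticeEquiv.hasSum_iff.mpr (L'.hasSum_weierstrassP z)
  refine (h1.prod_fiberwise fun i => ?_).unique (hasSum_fintype _)
  refine ((L.hasSum_weierstrassP (z - (i : ℂ) * v)).sub
    (L.hasSum_weierstrassP (-((i : ℂ) * v)))).congr_fun fun l => ?_
  simp only [Function.comp_apply, h.coe_latticeEquiv, sub_sub]
  ring

variable (hΔ : (wpCurve L).Δ ≠ 0)

/-- The kernel subgroup. -/
lemma mem_zmultiples_iff (z : ℂ) :
    wpHom hΔ z ∈ AddSubgroup.zmultiples (wpHom hΔ v) ↔ z ∈ L'.lattice := by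
  rw [h.mem_iff, AddSubgroup.mem_zmultiples_iff]
  constructor
  · rintro ⟨k, hk⟩
    rw [← map_zsmul] at hk
    have hmem : z - k • v ∈ L.lattice := by
      rw [← wpHom_eq_zero_iff hΔ, map_sub, hk, sub_self]
    rcases Nat.eq_zero_or_pos N with hN | hN
    · exfalso
      obtain ⟨i, -⟩ := (h.mem_iff 0).mp (zero_mem _)
      exact absurd i.2 (by omega)
    have hm : 0 ≤ k % (N : ℤ) := Int.emod_nonneg _ (by omega)
    have hlt : k % (N : ℤ) < N := Int.emod_lt_of_pos _ (by omega)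
    refine ⟨⟨(k % (N : ℤ)).toNat, by omega⟩, ?_⟩
    have hd : ((k - k % (N : ℤ) : ℤ) : ℂ) * v ∈ L.lattice :=
      (h.order _).mpr (Int.dvd_self_sub_emod)
    have e : z - ((⟨(k % (N : ℤ)).toNat, by omega⟩ : Fin N) : ℕ) * v =
        (z - k • v) + ((k - k % (N : ℤ) : ℤ) : ℂ) * v := by
      have : (((k % (N : ℤ)).toNat : ℕ) : ℂ) = ((k % (N : ℤ) : ℤ) : ℂ) := by
        exact_mod_cast Int.toNat_of_nonneg hm
      simp only [this, zsmul_eq_mul]
      push_cast
      ring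
    rw [e]
    exact add_mem hmem hd
  · rintro ⟨i, hi⟩
    refine ⟨((i : ℕ) : ℤ), ?_⟩
    rw [natCast_zsmul, ← map_nsmul, ← sub_eq_zero, ← map_sub, wpHom_eq_zero_iff, nsmul_eq_mul,
      ← neg_mem_iff, neg_sub]
    exact hi

omit h in
/-- The image of `v` has order `N`. -/
lemma card_zmultiples (hord : ∀ k : ℤ, (k : ℂ) * v ∈ L.lattice ↔ (N : ℤ) ∣ k) :
    addOrderOf (wpHom hΔ v) = N := by
  refine Nat.dvd_antisymm ?_ ?_
  · rw [addOrderOf_dvd_iff_nsmul_eq_zero, ← map_nsmul, wpHom_eq_zero_iff, nsmul_eq_mul]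
    exact_mod_cast (hord N).mpr dvd_rfl
  · have h1 : wpHom hΔ ((addOrderOf (wpHom hΔ v)) • v) = 0 := by
      rw [map_nsmul, addOrderOf_nsmul_eq_zero]
    rw [wpHom_eq_zero_iff, nsmul_eq_mul] at h1
    exact_mod_cast (hord (addOrderOf (wpHom hΔ v) : ℕ)).mp (by exact_mod_cast h1)

variable [Finite (AddSubgroup.zmultiples (wpHom hΔ v))]

open scoped Classical in
/-- A sum over the points of the cyclic subgroup as a sum over `i < N`. -/
lemma sum_Cf {M : Type*} [AddCommMonoid M] (f : (wpCurve L).Point → M) :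
    ∑ Q ∈ Cf (AddSubgroup.zmultiples (wpHom hΔ v)), f Q =
      ∑ i : Fin N, f (wpHom hΔ (-((i : ℂ) * v))) := by
  symm
  refine Finset.sum_bij (fun i _ => wpHom hΔ (-((i : ℂ) * v))) (fun i _ => ?_) (fun i _ j _ hij => ?_)
    (fun Q hQ => ?_) (fun _ _ => rfl)
  · rw [mem_Cf, h.mem_zmultiples_iff hΔ, neg_mem_iff, h.mem_iff]
    exact ⟨i, by simp⟩
  · rw [← sub_eq_zero, ← map_sub, wpHom_eq_zero_iff, neg_sub_neg] at hij
    exact (h.inj hij).symm
  · rw [mem_Cf, AddSubgroup.mem_zmultiples_iff] at hQ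
    obtain ⟨k, hk⟩ := hQ
    obtain ⟨i, hi⟩ := (h.mem_iff (-(k • v))).mp (by
      rw [neg_mem_iff, ← h.mem_zmultiples_iff hΔ, map_zsmul]
      exact ⟨k, rfl⟩)
    refine ⟨i, Finset.mem_univ _, ?_⟩
    rw [← hk, ← map_zsmul, ← sub_eq_zero, ← map_sub, wpHom_eq_zero_iff]
    convert hi using 1
    ring

open scoped Classical in
theorem Xv_wpHom (z : ℂ) :
    Xv (AddSubgroup.zmultiples (wpHom hΔ v)) (wpHom hΔ z) = ℘[L'] z := by
  rw [Xv, h.sum_Cf hΔ, h.weierstrassP_eq]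
  refine Finset.sum_congr rfl fun i _ => ?_
  rw [← map_add, xc_wpHom, xc_wpHom, ← sub_eq_add_neg]

open scoped Classical in
theorem Gv_wpHom (z : ℂ) :
    Gv (AddSubgroup.zmultiples (wpHom hΔ v)) (wpHom hΔ z) = ℘'[L'] z := by
  rw [Gv, h.sum_Cf hΔ, h.derivWeierstrassP_eq]
  refine Finset.sum_congr rfl fun i _ => ?_
  rw [← map_add, gc_wpHom, ← sub_eq_add_neg]

open scoped Classical in
/-- **Vélu's quotient is the curve of the larger lattice.** -/
theorem veluCurve_eq : veluCurve (AddSubgroup.zmultiples (wpHom hΔ v)) = wpCurve L' := by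
  have := isElliptic_wpCurve hΔ
  set α : ℂ := 2 * ((wpCurve L).b₄ - 10 * tV (AddSubgroup.zmultiples (wpHom hΔ v))) + L'.g₂ with hα
  set β : ℂ := (wpCurve L).b₆ - 4 * (wpCurve L).b₂ * tV (AddSubgroup.zmultiples (wpHom hΔ v))
    - 28 * wV (AddSubgroup.zmultiples (wpHom hΔ v)) + L'.g₃ with hβ
  have hb₂ : (wpCurve L).b₂ = 0 := by simp [wpCurve, WeierstrassCurve.b₂]
  have key : ∀ z, z ∉ L'.lattice → α * ℘[L'] z + β = 0 := by
    intro z hz
    have hP : wpHom hΔ z ∉ (AddSubgroup.zmultiples (wpHom hΔ v)) := (h.mem_zmultiples_iff hΔ z).not.mpr hz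
    have h1 := Gv_sq hP
    rw [h.Xv_wpHom hΔ, h.Gv_wpHom hΔ, L'.derivWeierstrassP_sq z hz, FV] at h1
    simp only [hb₂, eval_add, eval_mul, eval_C, eval_pow, eval_X] at h1
    rw [hα, hβ, hb₂]
    linear_combination -h1
  obtain ⟨z₀, hz₀, hz₀'⟩ := ((eventually_notMem_lattice L').and
    (eventually_derivWeierstrassP_ne_zero L')).exists
  have hev : (fun z => α * ℘[L'] z + β) =ᶠ[𝓝 z₀] fun _ => 0 :=
    Filter.eventually_of_mem (L'.isClosed_lattice.isOpen_compl.mem_nhds hz₀) key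
  have hd := ((hasDerivAt_weierstrassP L' hz₀).const_mul α).add_const β
  have hαz : α = 0 := by
    have := (hd.congr_of_eventuallyEq hev.symm).unique (hasDerivAt_const z₀ (0 : ℂ))
    exact (mul_eq_zero.mp this).resolve_right hz₀'
  have hβz : β = 0 := by simpa [hαz] using key z₀ hz₀
  rw [hα] at hαz
  rw [hβ, hb₂] at hβz
  ext <;> simp only [veluCurve, wpCurve, WeierstrassCurve.b₂, WeierstrassCurve.b₄,
    WeierstrassCurve.b₆] at hαz hβz ⊢
  · linear_combination hαz / 4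
  · linear_combination hβz / 4

end IsCyclicExt

end Fermat.Agent.XPoint
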