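import Mathlib.Analysis.SpecialFunctions.Elliptic.Weierstrass
import Mathlib.AlgebraicGeometry.EllipticCurve.Affine.Point
import Mathlib.Analysis.Analytic.Order
import Mathlib.Analysis.Analytic.IsolatedZeros
import Mathlib.Analysis.Calculus.Deriv.Inv
import Mathlib.Analysis.Normed.Module.Connected
import Mathlib.Analysis.Complex.CauchyIntegral

/-!
# The Weierstrass parametrisation is a homomorphism

`z ↦ (℘ z, ℘' z / 2)` is a group homomorphism to the Weierstrass cubic: an elementary proof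
through the differential equation `y'' = 6 y² - g₂/2`.
-/

set_option autoImplicit false

noncomputable section

open Filter Topology PeriodPair WeierstrassCurve

namespace Fermat.Agent.XPoint

/-- A solution of `D'' = h D` vanishing to order two at the origin vanishes. -/
lemma eventually_eq_zero_of_ode {D h : ℂ → ℂ} (hD : AnalyticAt ℂ D 0) (hh : AnalyticAt ℂ h 0)
    (h0 : D 0 = 0) (h1 : deriv D 0 = 0)
    (hode : ∀ᶠ z in 𝓝[≠] (0 : ℂ), deriv (deriv D) z = h z * D z) :
    ∀ᶠ z in 𝓝 (0 : ℂ), D z = 0 := by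
  by_contra hne
  obtain ⟨n, g, hg, hg0, hDg⟩ := hD.exists_eventuallyEq_pow_smul_nonzero_iff.mpr hne
  simp only [sub_zero, smul_eq_mul] at hDg
  have hgd := hg.eventually_analyticAt
  replace hDg : D =ᶠ[𝓝 0] fun z => z ^ n * g z := hDg
  rcases n with _ | _ | n
  · exact hg0 (by simpa [h0, eq_comm] using hDg.self_of_nhds)
  · have hd : HasDerivAt (fun z => z ^ (0 + 1) * g z) (g 0) 0 := by
      simpa using ((hasDerivAt_id (0 : ℂ)).fun_pow (0 + 1)).fun_mul hg.differentiableAt.hasDerivAt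
    have e := hDg.deriv_eq
    rw [hd.deriv, h1] at e
    exact hg0 e.symm
  -- second derivative
  have hd1 : deriv D =ᶠ[𝓝 0] fun z => z ^ (n + 1) * ((n + 2 : ℂ) * g z + z * deriv g z) := by
    have := hDg.deriv
    filter_upwards [this, hgd] with z hz hgz
    rw [hz, (((hasDerivAt_id' z).fun_pow (n + 1 + 1)).fun_mul hgz.differentiableAt.hasDerivAt).deriv]
    push_cast
    ring
  have hd2 : deriv (deriv D) =ᶠ[𝓝 0] fun z =>
      z ^ n * ((n + 1 : ℂ) * ((n + 2 : ℂ) * g z + z * deriv g z)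
        + z * ((n + 3 : ℂ) * deriv g z + z * deriv (deriv g) z)) := by
    filter_upwards [hd1.deriv, hgd] with z hz hgz
    rw [hz, (((hasDerivAt_id' z).fun_pow (n + 1)).fun_mul
      ((hgz.differentiableAt.hasDerivAt.const_mul _).fun_add
        ((hasDerivAt_id' z).fun_mul hgz.deriv.differentiableAt.hasDerivAt))).deriv]
    push_cast
    ring
  have hlim : ∀ᶠ z in 𝓝[≠] (0 : ℂ), (n + 1 : ℂ) * ((n + 2 : ℂ) * g z + z * deriv g z)
        + z * ((n + 3 : ℂ) * deriv g z + z * deriv (deriv g) z) = z * z * g z * h z := by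
    filter_upwards [hode, hd2.filter_mono nhdsWithin_le_nhds, hDg.filter_mono nhdsWithin_le_nhds,
      self_mem_nhdsWithin] with z e1 e2 e3 hz
    rw [e2, e3] at e1
    exact mul_left_cancel₀ (pow_ne_zero n hz) (by linear_combination e1)
  have c1 : ContinuousAt g 0 := hg.continuousAt
  have c2 : ContinuousAt (deriv g) 0 := hg.deriv.continuousAt
  have c3 : ContinuousAt (deriv (deriv g)) 0 := hg.deriv.deriv.continuousAt
  have c4 : ContinuousAt h 0 := hh.continuousAt
  have hzero := tendsto_nhds_unique_of_eventuallyEq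
    (l := 𝓝[≠] (0 : ℂ))
    ((((continuousAt_const.mul ((continuousAt_const.mul c1).add (continuousAt_id.mul c2))).add
      (continuousAt_id.mul ((continuousAt_const.mul c2).add (continuousAt_id.mul c3)))).tendsto).mono_left
        nhdsWithin_le_nhds)
    ((((continuousAt_id.mul continuousAt_id).mul c1).mul c4).tendsto.mono_left nhdsWithin_le_nhds)
    hlim
  have h12 : ((n + 1 : ℕ) : ℂ) * ((n + 2 : ℕ) : ℂ) * g 0 = 0 := by
    push_cast
    simpa [mul_assoc] using hzero
  exact absurd h12 (mul_ne_zero (mul_ne_zero (Nat.cast_ne_zero.mpr n.succ_ne_zero)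
    (Nat.cast_ne_zero.mpr (n + 1).succ_ne_zero)) hg0)

variable (L : PeriodPair)

/-- `℘'` is the derivative of `℘`. -/
lemma hasDerivAt_weierstrassP {z : ℂ} (hz : z ∉ L.lattice) :
    HasDerivAt ℘[L] (℘'[L] z) z := by
  have := ((L.analyticOnNhd_weierstrassP z hz).differentiableAt).hasDerivAt
  rwa [deriv_weierstrassP] at this

lemma weierstrassP_eq_add {z : ℂ} : ℘[L] z = (L.weierstrassPExcept 0) z + 1 / z ^ 2 := by
  have := L.weierstrassPExcept_add ⟨0, zero_mem _⟩ z
  simp only [sub_zero] at this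
  rw [← this]
  simp

lemma derivWeierstrassP_eq_add {z : ℂ} : ℘'[L] z = (L.derivWeierstrassPExcept 0) z - 2 / z ^ 3 := by
  have := L.derivWeierstrassPExcept_def ⟨0, zero_mem _⟩ z
  simp only [sub_zero] at this
  rw [this]
  ring

/-- Points near the origin, other than it, are outside the lattice. -/
lemma eventually_notMem_lattice : ∀ᶠ z in 𝓝[≠] (0 : ℂ), z ∉ L.lattice := by
  filter_upwards [mem_nhdsWithin_of_mem_nhds (L.compl_lattice_sdiff_singleton_mem_nhds 0),
    self_mem_nhdsWithin] with z hz hz0 hzL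
  exact hz ⟨hzL, hz0⟩

/-- The complement of the lattice is connected. -/
lemma isPreconnected_compl_lattice : IsPreconnected (L.lattice : Set ℂ)ᶜ :=
  ((Set.countable_coe_iff.mp (inferInstanceAs (Countable L.lattice))).isConnected_compl_of_one_lt_rank
    (by simp [Complex.rank_real_complex])).isPreconnected

/-- `℘'` does not vanish near the origin. -/
lemma eventually_derivWeierstrassP_ne_zero : ∀ᶠ z in 𝓝[≠] (0 : ℂ), ℘'[L] z ≠ 0 := by
  have hb : ContinuousAt (fun z : ℂ => z ^ 3 * (L.derivWeierstrassPExcept 0) z - 2) 0 :=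
    (continuousAt_id.pow 3).mul (L.analyticAt_derivWeierstrassPExcept 0).continuousAt |>.sub
      continuousAt_const
  have h : ∀ᶠ z in 𝓝 (0 : ℂ), z ^ 3 * (L.derivWeierstrassPExcept 0) z - 2 ≠ 0 := hb.eventually_ne (by simp)
  filter_upwards [h.filter_mono nhdsWithin_le_nhds, self_mem_nhdsWithin] with z hz hz0 h0
  apply hz
  rw [derivWeierstrassP_eq_add] at h0
  have hz0' : z ≠ 0 := hz0
  field_simp at h0
  linear_combination h0

/-- The second derivative of `℘`. -/
theorem deriv_derivWeierstrassP {z : ℂ} (hz : z ∉ L.lattice) :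
    deriv ℘'[L] z = 6 * ℘[L] z ^ 2 - L.g₂ / 2 := by
  set s : Set ℂ := (L.lattice : Set ℂ)ᶜ with hs
  have hopen : IsOpen s := L.isClosed_lattice.isOpen_compl
  have hf : AnalyticOnNhd ℂ (deriv ℘'[L]) s := L.analyticOnNhd_derivWeierstrassP.deriv
  have hg : AnalyticOnNhd ℂ (fun z => 6 * ℘[L] z ^ 2 - L.g₂ / 2) s :=
    ((analyticOnNhd_const.mul (L.analyticOnNhd_weierstrassP.pow 2)).sub analyticOnNhd_const)
  obtain ⟨z₀, hz₀⟩ := ((eventually_notMem_lattice L).and
    (eventually_derivWeierstrassP_ne_zero L)).exists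
  have hev : ∀ᶠ x in 𝓝 z₀, ℘'[L] x ≠ 0 :=
    (L.analyticOnNhd_derivWeierstrassP z₀ hz₀.1).continuousAt.eventually_ne hz₀.2
  refine hf.eqOn_of_preconnected_of_eventuallyEq hg (isPreconnected_compl_lattice L) hz₀.1 ?_ hz
  filter_upwards [hev, hopen.mem_nhds hz₀.1] with x hx hxs
  have h1 : (fun x => ℘'[L] x ^ 2) =ᶠ[𝓝 x]
      fun x => 4 * ℘[L] x ^ 3 - L.g₂ * ℘[L] x - L.g₃ :=
    Filter.eventually_of_mem (hopen.mem_nhds hxs) fun y hy => L.derivWeierstrassP_sq y hy
  have d1 := ((L.analyticOnNhd_derivWeierstrassP x hxs).differentiableAt.hasDerivAt).fun_pow 2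
  have d2 := (((hasDerivAt_weierstrassP L hxs).fun_pow 3).const_mul 4).fun_sub
    ((hasDerivAt_weierstrassP L hxs).const_mul L.g₂) |>.sub_const L.g₃
  have h2 := (d1.congr_of_eventuallyEq h1.symm).unique d2
  refine mul_left_cancel₀ (mul_ne_zero two_ne_zero hx) ?_
  push_cast at h2
  linear_combination h2

lemma hasDerivAt_derivWeierstrassP {z : ℂ} (hz : z ∉ L.lattice) :
    HasDerivAt ℘'[L] (6 * ℘[L] z ^ 2 - L.g₂ / 2) z := by
  rw [← deriv_derivWeierstrassP L hz]
  exact (L.analyticOnNhd_derivWeierstrassP z hz).differentiableAt.hasDerivAt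

/-- The curve `y² = x³ - (g₂/4) x - g₃/4`. -/
def wpCurve : Affine ℂ := ⟨0, 0, 0, -L.g₂ / 4, -L.g₃ / 4⟩

/-- The discriminant of the curve. -/
lemma wpCurve_Δ : (wpCurve L).Δ = L.g₂ ^ 3 - 27 * L.g₃ ^ 2 := by
  simp only [wpCurve, WeierstrassCurve.Δ, WeierstrassCurve.b₂, WeierstrassCurve.b₄,
    WeierstrassCurve.b₆, WeierstrassCurve.b₈]
  ring

lemma equation_wp {z : ℂ} (hz : z ∉ L.lattice) :
    (wpCurve L).Equation (℘[L] z) (℘'[L] z / 2) := by
  rw [Affine.equation_iff]
  simp only [wpCurve]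
  linear_combination (L.derivWeierstrassP_sq z hz) / 4

variable {L}

open scoped Classical in
/-- The uniformisation `z ↦ (℘ z, ℘' z / 2)`. -/
def wpPoint (hΔ : (wpCurve L).Δ ≠ 0) (z : ℂ) : (wpCurve L).Point :=
  if hz : z ∈ L.lattice then 0
  else .some _ _ (((wpCurve L).equation_iff_nonsingular_of_Δ_ne_zero hΔ).mp (equation_wp L hz))

variable (hΔ : (wpCurve L).Δ ≠ 0)

/-- Lattice points map to zero. -/
lemma wpPoint_of_mem {z : ℂ} (hz : z ∈ L.lattice) : wpPoint hΔ z = 0 := dif_pos hz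

/-- The other points map to affine points. -/
lemma wpPoint_of_notMem {z : ℂ} (hz : z ∉ L.lattice) :
    wpPoint hΔ z = .some _ _
      (((wpCurve L).equation_iff_nonsingular_of_Δ_ne_zero hΔ).mp (equation_wp L hz)) :=
  dif_neg hz

lemma wpPoint_add_mem {z l : ℂ} (hl : l ∈ L.lattice) : wpPoint hΔ (z + l) = wpPoint hΔ z := by
  by_cases hz : z ∈ L.lattice
  · rw [wpPoint_of_mem hΔ hz, wpPoint_of_mem hΔ (add_mem hz hl)]
  · have : z + l ∉ L.lattice := fun h => hz (by simpa using sub_mem h hl)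
    rw [wpPoint_of_notMem hΔ hz, wpPoint_of_notMem hΔ this]
    simp only [Affine.Point.some.injEq]
    exact ⟨L.weierstrassP_add_coe z ⟨l, hl⟩, by rw [L.derivWeierstrassP_add_coe z ⟨l, hl⟩]⟩

/-! ### The chord through `wpPoint z` and `wpPoint w`, as a function of `z` -/

section Chord

variable (L) (w : ℂ)

/-- The slope of the chord through `wpPoint z` and `wpPoint w`. -/
def chordSlope (z : ℂ) : ℂ := (℘'[L] z / 2 - ℘'[L] w / 2) / (℘[L] z - ℘[L] w)

/-- `z²` times `℘ z - ℘ w`, extended analytically to the origin. -/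
def chordDen (z : ℂ) : ℂ := 1 + z ^ 2 * ((L.weierstrassPExcept 0) z - ℘[L] w)

/-- The abscissa of the third point on the chord, extended analytically to the origin. -/
def chordX (z : ℂ) : ℂ :=
  let A := (L.weierstrassPExcept 0) z - ℘[L] w
  let B := (L.derivWeierstrassPExcept 0) z / 2 - ℘'[L] w / 2
  (z ^ 4 * B ^ 2 - 2 * z * B - 2 * A - z ^ 2 * A ^ 2 -
    ((L.weierstrassPExcept 0) z + ℘[L] w) * chordDen L w z ^ 2) / chordDen L w z ^ 2

/-- `chordDen` is one at the origin. -/
lemma chordDen_zero : chordDen L w 0 = 1 := by simp [chordDen]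

/-- `chordX` is analytic at the origin. -/
lemma analyticAt_chordX : AnalyticAt ℂ (chordX L w) 0 := by
  have := L.analyticAt_weierstrassPExcept 0
  have := L.analyticAt_derivWeierstrassPExcept 0
  refine AnalyticAt.div ?_ ?_ (by simp [chordDen_zero]) <;> unfold chordDen <;> fun_prop

/-- Its value at the origin is `℘ w`. -/
lemma chordX_zero : chordX L w 0 = ℘[L] w := by
  simp [chordX, chordDen, L.weierstrassPExcept_zero 0]
  ring

/-- Its derivative at the origin is `℘' w`. -/
lemma deriv_chordX_zero : deriv (chordX L w) 0 = ℘'[L] w := by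
  set a : ℂ → ℂ := L.weierstrassPExcept 0
  set B : ℂ → ℂ := fun z => (L.derivWeierstrassPExcept 0) z / 2 - ℘'[L] w / 2 with hB
  have ha0 : a 0 = 0 := L.weierstrassPExcept_zero 0
  have hid := hasDerivAt_id' (0 : ℂ)
  have ha1 : HasDerivAt a 0 0 := by
    have := (L.analyticAt_weierstrassPExcept 0).differentiableAt.hasDerivAt
    rwa [show deriv a 0 = 0 from (L.deriv_weierstrassPExcept_same 0).trans
      L.derivWeierstrassPExcept_zero_zero] at this
  have hA1 : HasDerivAt (fun z => a z - ℘[L] w) 0 0 := ha1.sub_const (℘[L] w)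
  have hB1 : HasDerivAt B (deriv B 0) 0 := by
    have := L.analyticAt_derivWeierstrassPExcept 0
    have h : AnalyticAt ℂ B 0 := by simp only [hB]; fun_prop
    exact h.differentiableAt.hasDerivAt
  have hn1 : HasDerivAt (chordDen L w) 0 0 := by
    rw [show chordDen L w = fun z => 1 + z ^ 2 * (a z - ℘[L] w) from rfl]
    simpa using ((hid.fun_pow 2).fun_mul hA1).const_add 1
  have h := (((((hid.fun_pow 4).fun_mul (hB1.fun_pow 2)).fun_sub
    ((hid.const_mul 2).fun_mul hB1)).fun_sub (hA1.const_mul 2)).fun_sub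
      ((hid.fun_pow 2).fun_mul (hA1.fun_pow 2))).fun_sub
        ((ha1.add_const (℘[L] w)).fun_mul (hn1.fun_pow 2))
  refine ((h.fun_div (hn1.fun_pow 2) (by simp [chordDen_zero])).deriv).trans ?_
  simp [chordDen_zero, ha0, hB, L.derivWeierstrassPExcept_zero_zero]
  ring

/-- Near the origin `chordX` is the abscissa given by the addition formula. -/
lemma eventually_chordX_eq : ∀ᶠ z in 𝓝[≠] (0 : ℂ), z ∉ L.lattice ∧ ℘[L] z - ℘[L] w ≠ 0 ∧
    chordX L w z = chordSlope L w z ^ 2 - ℘[L] z - ℘[L] w := by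
  have hne : ∀ᶠ z in 𝓝 (0 : ℂ), chordDen L w z ≠ 0 := by
    have := L.analyticAt_weierstrassPExcept 0
    exact (show AnalyticAt ℂ (chordDen L w) 0 by unfold chordDen; fun_prop).continuousAt
      |>.eventually_ne (by simp [chordDen_zero])
  filter_upwards [eventually_notMem_lattice L, self_mem_nhdsWithin,
    hne.filter_mono nhdsWithin_le_nhds] with z hzL hz hnz
  have hz' : z ≠ 0 := hz
  have e : ℘[L] z - ℘[L] w = chordDen L w z / z ^ 2 := by
    rw [weierstrassP_eq_add L (z := z)]; simp only [chordDen]; field_simp; ring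
  refine ⟨hzL, by rw [e]; exact div_ne_zero hnz (pow_ne_zero 2 hz'), ?_⟩
  have e2 : ℘'[L] z / 2 - ℘'[L] w / 2 =
      (z ^ 3 * ((L.derivWeierstrassPExcept 0) z / 2 - ℘'[L] w / 2) - 1) / z ^ 3 := by
    rw [derivWeierstrassP_eq_add L (z := z)]; field_simp; ring
  simp only [chordSlope, chordX]
  rw [e, e2, weierstrassP_eq_add L (z := z)]
  simp only [chordDen] at hnz ⊢
  field_simp
  ring

variable {w}

/-- The derivative of the slope, from the differential equation. -/
lemma hasDerivAt_chordSlope (hw : w ∉ L.lattice) {z : ℂ} (hz : z ∉ L.lattice)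
    (hd : ℘[L] z - ℘[L] w ≠ 0) :
    HasDerivAt (chordSlope L w) (2 * ℘[L] z + ℘[L] w - chordSlope L w z ^ 2) z := by
  have := (((hasDerivAt_derivWeierstrassP L hz).div_const 2).sub_const (℘'[L] w / 2)).fun_div
    ((hasDerivAt_weierstrassP L hz).sub_const (℘[L] w)) hd
  refine this.congr_deriv ?_
  simp only [chordSlope]
  field_simp
  linear_combination (L.derivWeierstrassP_sq w hw) - (L.derivWeierstrassP_sq z hz)

/-- `chordX` satisfies the differential equation of `℘`. -/
lemma eventually_chordX_ode (hw : w ∉ L.lattice) : ∀ᶠ z in 𝓝[≠] (0 : ℂ),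
    deriv (chordX L w) z =
        -(2 * chordSlope L w z * (chordX L w z - ℘[L] z)) - ℘'[L] z ∧
      deriv (deriv (chordX L w)) z = 6 * chordX L w z ^ 2 - L.g₂ / 2 := by
  have hgood := eventually_chordX_eq L w
  set F := chordX L w
  set lam := chordSlope L w with hlam
  have hkey : ∀ z, z ∉ L.lattice → ℘[L] z - ℘[L] w ≠ 0 →
      HasDerivAt lam (2 * ℘[L] z + ℘[L] w - lam z ^ 2) z :=
    fun _ hz hd => hasDerivAt_chordSlope L hw hz hd
  have h1 : ∀ᶠ z in 𝓝[≠] (0 : ℂ),
      HasDerivAt F (-(2 * lam z * (F z - ℘[L] z)) - ℘'[L] z) z := by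
    filter_upwards [hgood, self_mem_nhdsWithin, eventually_eventually_nhdsWithin.mpr hgood]
      with z ⟨hz, hd0, _⟩ hz0 hev
    rw [IsOpen.nhdsWithin_eq isOpen_compl_singleton hz0] at hev
    have hFeq : F =ᶠ[𝓝 z] fun z => lam z ^ 2 - ℘[L] z - ℘[L] w := by
      filter_upwards [hev] with x hx using hx.2.2
    have := (((hkey z hz hd0).fun_pow 2).fun_sub
      (hasDerivAt_weierstrassP L hz)).sub_const (℘[L] w)
    refine (this.congr_of_eventuallyEq hFeq).congr_deriv ?_
    rw [hFeq.self_of_nhds]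
    push_cast
    ring
  filter_upwards [h1, hgood, self_mem_nhdsWithin, eventually_eventually_nhdsWithin.mpr h1]
    with z hz1 ⟨hz, hd0, hFz⟩ hz0 hev
  refine ⟨hz1.deriv, ?_⟩
  rw [IsOpen.nhdsWithin_eq isOpen_compl_singleton hz0] at hev
  have hd : deriv F =ᶠ[𝓝 z] fun x => -(2 * lam x * (F x - ℘[L] x)) - ℘'[L] x := by
    filter_upwards [hev] with x hx using hx.deriv
  have h2 := ((((hkey z hz hd0).const_mul 2).fun_mul
    (hz1.fun_sub (hasDerivAt_weierstrassP L hz))).fun_neg).fun_sub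
      (hasDerivAt_derivWeierstrassP L hz)
  rw [hd.deriv_eq, h2.deriv]
  have hrel : lam z * (lam z * (℘[L] z - ℘[L] w) + ℘'[L] w) =
      ℘[L] z ^ 2 + ℘[L] z * ℘[L] w + ℘[L] w ^ 2 - L.g₂ / 4 := by
    refine mul_left_cancel₀ hd0 ?_
    have e : lam z * (℘[L] z - ℘[L] w) = ℘'[L] z / 2 - ℘'[L] w / 2 := by
      simp only [hlam, chordSlope]; field_simp
    linear_combination
      (lam z * (℘[L] z - ℘[L] w) + ℘'[L] w + (℘'[L] z / 2 - ℘'[L] w / 2)) * e
      + (L.derivWeierstrassP_sq z hz - L.derivWeierstrassP_sq w hw) / 4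
  have hp' : ℘'[L] z = 2 * (lam z * (℘[L] z - ℘[L] w)) + ℘'[L] w := by
    simp only [hlam, chordSlope]; field_simp; ring
  rw [hFz, hp']
  clear h2 hd hp' hd0
  generalize lam z = l at hrel ⊢
  linear_combination 4 * hrel

/-- So does the translate of `℘` by `w`. -/
lemma eventually_translate_ode (hw : w ∉ L.lattice) : ∀ᶠ z in 𝓝 (0 : ℂ),
    z + w ∉ L.lattice ∧ deriv (fun z => ℘[L] (z + w)) z = ℘'[L] (z + w) ∧
      deriv (deriv fun z => ℘[L] (z + w)) z = 6 * ℘[L] (z + w) ^ 2 - L.g₂ / 2 := by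
  have hcompl : ∀ᶠ z in 𝓝 (0 : ℂ), z + w ∉ L.lattice :=
    (show ContinuousAt (fun z : ℂ => z + w) 0 by fun_prop).preimage_mem_nhds
      (L.isClosed_lattice.isOpen_compl.mem_nhds (by simpa using hw))
  have h1 : ∀ᶠ z in 𝓝 (0 : ℂ), deriv (fun z => ℘[L] (z + w)) z = ℘'[L] (z + w) := by
    filter_upwards [hcompl] with z hz
    exact ((hasDerivAt_weierstrassP L hz).comp_add_const z w).deriv
  filter_upwards [h1, hcompl, h1.eventually_nhds] with z hz hzw hz'
  refine ⟨hzw, hz, ?_⟩
  rw [(show deriv (fun z => ℘[L] (z + w)) =ᶠ[𝓝 z] fun x => ℘'[L] (x + w) from hz').deriv_eq,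
    ((hasDerivAt_derivWeierstrassP L hzw).comp_add_const z w).deriv]

/-- Both functions solve the same initial value problem, so `℘ (z + w)` is `chordX` and
`℘' (z + w)` is its derivative. -/
lemma eventually_weierstrassP_add (hw : w ∉ L.lattice) : ∀ᶠ z in 𝓝[≠] (0 : ℂ),
    z + w ∉ L.lattice ∧ ℘[L] (z + w) = chordX L w z ∧
      ℘'[L] (z + w) = deriv (chordX L w) z := by
  set F := chordX L w
  set G : ℂ → ℂ := fun z => ℘[L] (z + w) with hG
  have hFa : AnalyticAt ℂ F 0 := analyticAt_chordX L w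
  have hGa : AnalyticAt ℂ G 0 :=
    (L.analyticOnNhd_weierstrassP _ (by simpa using hw)).comp (by fun_prop)
  have hGd := eventually_translate_ode L hw
  have hD0 : (F - G) 0 = 0 := by simp [F, chordX_zero, hG]
  have hD1 : deriv (F - G) 0 = 0 := by
    rw [deriv_sub hFa.differentiableAt hGa.differentiableAt, deriv_chordX_zero,
      hGd.self_of_nhds.2.1, zero_add, sub_self]
  have han : ∀ᶠ z in 𝓝 (0 : ℂ), AnalyticAt ℂ F z ∧ AnalyticAt ℂ G z :=
    hFa.eventually_analyticAt.and hGa.eventually_analyticAt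
  have hode : ∀ᶠ z in 𝓝[≠] (0 : ℂ),
      deriv (deriv (F - G)) z = (fun z => 6 * (F z + G z)) z * (F - G) z := by
    filter_upwards [eventually_chordX_ode L hw, hGd.filter_mono nhdsWithin_le_nhds,
      han.eventually_nhds.filter_mono nhdsWithin_le_nhds] with z e1 e2 hz
    have hd : deriv (F - G) =ᶠ[𝓝 z] deriv F - deriv G := by
      filter_upwards [hz] with x hx
      exact deriv_sub hx.1.differentiableAt hx.2.differentiableAt
    rw [hd.deriv_eq, deriv_sub hz.self_of_nhds.1.deriv.differentiableAt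
      hz.self_of_nhds.2.deriv.differentiableAt, e1.2, e2.2.2, Pi.sub_apply]
    ring
  have hzero := eventually_eq_zero_of_ode (hFa.sub hGa) (by fun_prop) hD0 hD1 hode
  have hderiv : deriv (F - G) =ᶠ[𝓝 0] fun _ => 0 := by
    have h := (show (F - G) =ᶠ[𝓝 0] fun _ => 0 from hzero).deriv
    simpa using h
  refine Eventually.filter_mono nhdsWithin_le_nhds ?_
  filter_upwards [hGd, hzero, hderiv, han] with z ⟨hzw, e2, _⟩ e3 e4 e5
  refine ⟨hzw, ?_, ?_⟩
  · rw [Pi.sub_apply, sub_eq_zero] at e3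
    exact e3.symm
  · rw [deriv_sub e5.1.differentiableAt e5.2.differentiableAt, sub_eq_zero] at e4
    rw [e4, e2]

end Chord

/-- The addition formula near the origin. -/
lemma eventually_wpPoint_add (w : ℂ) :
    ∀ᶠ z in 𝓝[≠] (0 : ℂ), wpPoint hΔ (z + w) = wpPoint hΔ z + wpPoint hΔ w := by
  by_cases hw : w ∈ L.lattice
  · exact .of_forall fun z => by rw [wpPoint_add_mem hΔ hw, wpPoint_of_mem hΔ hw, add_zero]
  filter_upwards [eventually_chordX_eq L w, eventually_chordX_ode L hw,
    eventually_weierstrassP_add L hw] with z ⟨hz, hd0, hFz⟩ ⟨hF', _⟩ ⟨hzw, hx, hy⟩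
  have hne : ℘[L] z ≠ ℘[L] w := sub_ne_zero.mp hd0
  rw [wpPoint_of_notMem hΔ hzw, wpPoint_of_notMem hΔ hz, wpPoint_of_notMem hΔ hw,
    Affine.Point.add_of_X_ne hne]
  simp only [Affine.Point.some.injEq, Affine.slope_of_X_ne hne]
  refine ⟨?_, ?_⟩
  · rw [hx, hFz, Affine.addX]
    simp only [chordSlope, wpCurve]
    ring
  · rw [hy, hF', hFz, Affine.addY, Affine.negAddY, Affine.addX, Affine.negY]
    simp only [chordSlope, wpCurve]
    ring

/-- `wpPoint` is additive. -/
theorem wpPoint_add (z w : ℂ) : wpPoint hΔ (z + w) = wpPoint hΔ z + wpPoint hΔ w := by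
  set c : ℂ → (wpCurve L).Point := fun x => wpPoint hΔ (x + w) - wpPoint hΔ x with hc
  have hloc : IsLocallyConstant c := by
    rw [IsLocallyConstant.iff_eventually_eq]
    intro x
    have h : ∀ᶠ h in 𝓝 (0 : ℂ), c (x + h) = c x := by
      have h1 := eventually_wpPoint_add hΔ (x + w)
      have h2 := eventually_wpPoint_add hΔ x
      rw [eventually_nhdsWithin_iff] at h1 h2
      filter_upwards [h1, h2] with h e1 e2
      rcases eq_or_ne h 0 with rfl | hh
      · rw [add_zero]
      · simp only [hc]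
        rw [show x + h + w = h + (x + w) by ring, show x + h = h + x by ring, e1 hh, e2 hh]
        abel
    have hh : Tendsto (fun y => y - x) (𝓝 x) (𝓝 0) := by
      simpa using (continuous_sub_right x).tendsto x
    filter_upwards [hh.eventually h] with y hy
    simpa using hy
  have := hloc.apply_eq_of_preconnectedSpace z 0
  simp only [hc, zero_add, wpPoint_of_mem hΔ (zero_mem L.lattice), sub_zero] at this
  rw [← this]
  abel

/-- `wpPoint` as a homomorphism. -/
def wpHom : ℂ →+ (wpCurve L).Point := AddMonoidHom.mk' (wpPoint hΔ) (wpPoint_add hΔ)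

/-- `wpHom` is `wpPoint`. -/
theorem wpHom_apply (z : ℂ) : wpHom hΔ z = wpPoint hΔ z := rfl

/-- The kernel of `wpHom` is the lattice. -/
theorem wpHom_eq_zero_iff {z : ℂ} : wpHom hΔ z = 0 ↔ z ∈ L.lattice := by
  refine ⟨fun h => ?_, fun h => wpPoint_of_mem hΔ h⟩
  by_contra hz
  rw [wpHom_apply, wpPoint_of_notMem hΔ hz] at h
  exact Affine.Point.some_ne_zero _ h

end Fermat.Agent.XPoint
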